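import Mathlib

set_option autoImplicit false

/-!
# Localization of the ring of all algebraic integers at a prime, as a valuation subring
-/

namespace Fermat.Agent.S54

open Polynomial

variable {L : Type*} [Field L] [Algebra ℤ L]

/-- The localization of `integralClosure ℤ L` at a prime `Q`, as a subset of `L`. -/
def locCarrier (Q : Ideal (integralClosure ℤ L)) : Set L :=
  {x | ∃ s : integralClosure ℤ L, s ∉ Q ∧ (s : L) * x ∈ integralClosure ℤ L}

theorem leadingCoeff_mul_mem (p : (integralClosure ℤ L)[X]) (x : L) (hx : aeval x p = 0) :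
    (p.leadingCoeff : L) * x ∈ integralClosure ℤ L := by
  have h1 : IsIntegral (integralClosure ℤ L) (p.leadingCoeff • x) :=
    isIntegral_leadingCoeff_smul p x hx
  have h2 : IsIntegral ℤ (p.leadingCoeff • x) := by
    have : Algebra.IsIntegral ℤ (integralClosure ℤ L) := inferInstance
    exact isIntegral_trans _ h1
  have h3 : p.leadingCoeff • x = (p.leadingCoeff : L) * x := by
    rw [Algebra.smul_def]; rfl
  rw [← h3]
  exact h2

/-- Kaplansky's lemma, in the form we need. -/
theorem mem_or_inv_mem_locCarrier (Q : Ideal (integralClosure ℤ L)) [Q.IsPrime] (x : L) :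
    ∀ (n : ℕ) (p : (integralClosure ℤ L)[X]), p.natDegree ≤ n → aeval x p = 0 →
      (∃ i, p.coeff i ∉ Q) → x ∈ locCarrier Q ∨ x⁻¹ ∈ locCarrier Q := by
  intro n
  induction n with
  | zero =>
    intro p hp hx ⟨i, hi⟩
    exfalso
    rw [Nat.le_zero] at hp
    rw [Polynomial.eq_C_of_natDegree_eq_zero hp, aeval_C] at hx
    have h0 : p.coeff 0 = 0 := by
      have : ((p.coeff 0 : integralClosure ℤ L) : L) = 0 := hx
      exact_mod_cast this
    apply hi
    rw [Polynomial.eq_C_of_natDegree_eq_zero hp, h0]
    simp
  | succ n ih =>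
    intro p hp hx ⟨i₀, hi₀⟩
    by_cases hdeg : p.natDegree ≤ n
    · exact ih p hdeg hx ⟨i₀, hi₀⟩
    have hdeg' : p.natDegree = n + 1 := le_antisymm hp (by omega)
    have hb := leadingCoeff_mul_mem p x hx
    set b : integralClosure ℤ L := ⟨(p.leadingCoeff : L) * x, hb⟩ with hbdef
    by_cases hlc : p.leadingCoeff ∈ Q
    · -- new polynomial of smaller degree
      set p' : (integralClosure ℤ L)[X] := p.eraseLead + C b * X ^ n with hp'
      have hdeg1 : p'.natDegree ≤ n := by
        refine (natDegree_add_le _ _).trans (max_le ?_ ?_)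
        · have := eraseLead_natDegree_le p
          omega
        · exact natDegree_C_mul_X_pow_le _ _
      have hx' : aeval x p' = 0 := by
        have h1 : aeval x p = aeval x p.eraseLead + (p.leadingCoeff : L) * x ^ (n + 1) := by
          conv_lhs => rw [← eraseLead_add_C_mul_X_pow p, hdeg']
          simp only [map_add, map_mul, aeval_C, map_pow, aeval_X]
          rfl
        have h2 : aeval x p' = aeval x p.eraseLead + (b : L) * x ^ n := by
          simp only [hp', map_add, map_mul, aeval_C, map_pow, aeval_X]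
          rfl
        rw [h2]
        rw [hx] at h1
        have : (b : L) = (p.leadingCoeff : L) * x := rfl
        rw [this, h1]
        ring
      by_cases hall : ∃ i, p'.coeff i ∉ Q
      · exact ih p' hdeg1 hx' hall
      · simp only [not_exists, not_not] at hall
        have hi₀n : i₀ = n := by
          by_contra hne
          have hne' : i₀ ≠ p.natDegree := by
            intro h
            apply hi₀
            rw [h]
            exact hlc
          have := hall i₀
          rw [hp', coeff_add, eraseLead_coeff_of_ne _ hne', coeff_C_mul, coeff_X_pow,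
            if_neg hne, mul_zero, add_zero] at this
          exact hi₀ this
        have hbQ : b ∉ Q := by
          intro hbQ
          have := hall n
          rw [hp', coeff_add, eraseLead_coeff_of_ne _ (by omega), coeff_C_mul, coeff_X_pow,
            if_pos rfl, mul_one] at this
          apply hi₀
          rw [hi₀n]
          have h3 := Q.sub_mem this hbQ
          simpa using h3
        right
        refine ⟨b, hbQ, ?_⟩
        have hb0 : (b : L) ≠ 0 := by
          intro h
          apply hbQ
          have : b = 0 := by exact_mod_cast h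
          rw [this]
          exact Q.zero_mem
        have hx0 : x ≠ 0 := by
          intro h
          apply hb0
          show (p.leadingCoeff : L) * x = 0
          rw [h, mul_zero]
        have : (b : L) * x⁻¹ = (p.leadingCoeff : L) := by
          show (p.leadingCoeff : L) * x * x⁻¹ = _
          rw [mul_assoc, mul_inv_cancel₀ hx0, mul_one]
        rw [this]
        exact (p.leadingCoeff).2
    · left
      exact ⟨p.leadingCoeff, hlc, hb⟩


/-- A nonzero integer polynomial killing an algebraic element. -/
theorem exists_primitive_aeval_eq_zero [CharZero L] (x : L) (hx : IsAlgebraic ℤ x) :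
    ∃ p : ℤ[X], p.IsPrimitive ∧ aeval x p = 0 := by
  obtain ⟨p, hp0, hp⟩ := hx
  refine ⟨p.primPart, p.isPrimitive_primPart, ?_⟩
  have h1 : p = C p.content * p.primPart := p.eq_C_content_mul_primPart
  rw [h1, map_mul, aeval_C] at hp
  have hc : (algebraMap ℤ L) p.content ≠ 0 := by
    have : p.content ≠ 0 := by
      rwa [Ne, content_eq_zero_iff]
    simpa using this
  exact (mul_eq_zero.mp hp).resolve_left hc

/-- The localization of the ring of algebraic integers of `L` at a prime `Q` containing the
rational prime `ℓ`, as a valuation subring of `L` (for `L` algebraic over `ℚ`). -/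
def locValuationSubring [CharZero L] (halg : ∀ x : L, IsAlgebraic ℤ x)
    (Q : Ideal (integralClosure ℤ L)) [Q.IsPrime] (ℓ : ℕ) (hℓ : ℓ.Prime)
    (hℓQ : ((ℓ : ℤ) : integralClosure ℤ L) ∈ Q) : ValuationSubring L where
  carrier := locCarrier Q
  mul_mem' := by
    rintro x y ⟨s, hs, hsx⟩ ⟨t, ht, hty⟩
    refine ⟨s * t, fun h => (Ideal.IsPrime.mem_or_mem ‹Q.IsPrime› h).elim hs ht, ?_⟩
    have : ((s * t : integralClosure ℤ L) : L) * (x * y) = ((s : L) * x) * ((t : L) * y) := by
      push_cast; ring
    rw [this]
    exact mul_mem hsx hty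
  one_mem' := ⟨1, fun h => (Ideal.IsPrime.ne_top ‹Q.IsPrime›) ((Ideal.eq_top_iff_one _).mpr h),
    by simp [one_mem]⟩
  add_mem' := by
    rintro x y ⟨s, hs, hsx⟩ ⟨t, ht, hty⟩
    refine ⟨s * t, fun h => (Ideal.IsPrime.mem_or_mem ‹Q.IsPrime› h).elim hs ht, ?_⟩
    have : ((s * t : integralClosure ℤ L) : L) * (x + y) =
        (t : L) * ((s : L) * x) + (s : L) * ((t : L) * y) := by
      push_cast; ring
    rw [this]
    exact add_mem (mul_mem t.2 hsx) (mul_mem s.2 hty)
  zero_mem' := ⟨1, fun h => (Ideal.IsPrime.ne_top ‹Q.IsPrime›) ((Ideal.eq_top_iff_one _).mpr h),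
    by simp [zero_mem]⟩
  neg_mem' := by
    rintro x ⟨s, hs, hsx⟩
    refine ⟨s, hs, ?_⟩
    rw [mul_neg]
    exact neg_mem hsx
  mem_or_inv_mem' := by
    intro x
    obtain ⟨p, hprim, hp⟩ := exists_primitive_aeval_eq_zero x (halg x)
    refine mem_or_inv_mem_locCarrier Q x _ (p.map (algebraMap ℤ (integralClosure ℤ L))) le_rfl ?_ ?_
    · rw [aeval_map_algebraMap]
      exact hp
    · -- some coefficient is prime to `ℓ`
      by_contra hcon
      simp only [not_exists, not_not] at hcon
      have hdvd : ∀ i, (ℓ : ℤ) ∣ p.coeff i := by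
        intro i
        by_contra hnd
        have hcop : IsCoprime (ℓ : ℤ) (p.coeff i) :=
          (Nat.prime_iff_prime_int.mp hℓ).coprime_iff_not_dvd.mpr hnd
        obtain ⟨u, v, huv⟩ := hcop
        have h1 := hcon i
        rw [coeff_map] at h1
        rw [eq_intCast] at h1
        have h2 : ((u : ℤ) : integralClosure ℤ L) * ((ℓ : ℤ) : integralClosure ℤ L) +
            ((v : ℤ) : integralClosure ℤ L) * ((p.coeff i : ℤ) : integralClosure ℤ L) ∈ Q :=
          Q.add_mem (Q.mul_mem_left _ hℓQ) (Q.mul_mem_left _ h1)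
        have h3 : ((u : ℤ) : integralClosure ℤ L) * ((ℓ : ℤ) : integralClosure ℤ L) +
            ((v : ℤ) : integralClosure ℤ L) * ((p.coeff i : ℤ) : integralClosure ℤ L) = 1 := by
          rw [← Int.cast_mul, ← Int.cast_mul, ← Int.cast_add, huv, Int.cast_one]
        rw [h3] at h2
        exact (Ideal.IsPrime.ne_top ‹Q.IsPrime›) ((Ideal.eq_top_iff_one _).mpr h2)
      have hC : C (ℓ : ℤ) ∣ p := (C_dvd_iff_dvd_coeff _ _).mpr hdvd
      have hu := hprim _ hC
      have := Int.isUnit_iff.mp hu
      have h2 := hℓ.two_le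
      omega

theorem mem_locValuationSubring_iff [CharZero L] (halg : ∀ x : L, IsAlgebraic ℤ x)
    (Q : Ideal (integralClosure ℤ L)) [Q.IsPrime] (ℓ : ℕ) (hℓ : ℓ.Prime)
    (hℓQ : ((ℓ : ℤ) : integralClosure ℤ L) ∈ Q) (x : L) :
    x ∈ locValuationSubring halg Q ℓ hℓ hℓQ ↔
      ∃ s : integralClosure ℤ L, s ∉ Q ∧ (s : L) * x ∈ integralClosure ℤ L := Iff.rfl

end Fermat.Agent.S54
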