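import Mathlib

set_option autoImplicit false

/-!
# Existence of Frobenius elements on the ring of all algebraic integers
-/

namespace Fermat.Agent.S54

open scoped Pointwise

/-- A rational number which is an algebraic integer is an integer. -/
theorem exists_int_of_isIntegral_algebraMap (q : ℚ)
    (h : IsIntegral ℤ (algebraMap ℚ (AlgebraicClosure ℚ) q)) : ∃ n : ℤ, (n : ℚ) = q := by
  have h1 : IsIntegral ℤ q :=
    (isIntegral_algebraMap_iff (FaithfulSMul.algebraMap_injective ℚ (AlgebraicClosure ℚ))).mp h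
  obtain ⟨n, hn⟩ := IsIntegrallyClosed.algebraMap_eq_of_integral h1
  exact ⟨n, by simpa using hn⟩

theorem isInvariant_integralClosure :
    Algebra.IsInvariant ℤ (integralClosure ℤ (AlgebraicClosure ℚ))
      (AlgebraicClosure ℚ ≃ₐ[ℚ] AlgebraicClosure ℚ) := by
  have halg : Algebra.IsAlgebraic ℚ (AlgebraicClosure ℚ) := AlgebraicClosure.isAlgebraic ℚ
  have hclos : IsAlgClosure ℚ (AlgebraicClosure ℚ) := AlgebraicClosure.instIsAlgClosure ℚ
  have hgal : IsGalois ℚ (AlgebraicClosure ℚ) := inferInstance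
  refine ⟨fun b hb => ?_⟩
  have hfix : ∀ g : AlgebraicClosure ℚ ≃ₐ[ℚ] AlgebraicClosure ℚ,
      g (b : AlgebraicClosure ℚ) = b := by
    intro g
    have := congrArg (fun z : integralClosure ℤ (AlgebraicClosure ℚ) =>
      (z : AlgebraicClosure ℚ)) (hb g)
    exact this
  obtain ⟨q, hq⟩ := (InfiniteGalois.mem_range_algebraMap_iff_fixed
    (k := ℚ) (K := AlgebraicClosure ℚ) (b : AlgebraicClosure ℚ)).mpr hfix
  have hint : IsIntegral ℤ (algebraMap ℚ (AlgebraicClosure ℚ) q) := by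
    rw [hq]; exact b.2
  obtain ⟨n, hn⟩ := exists_int_of_isIntegral_algebraMap q hint
  refine ⟨n, Subtype.ext ?_⟩
  rw [← hq, ← hn]
  simp


/-- A rational prime is not a unit in the ring of algebraic integers. -/
theorem exists_maximal_mem (ℓ : ℕ) (hℓ : ℓ.Prime) :
    ∃ Q : Ideal (integralClosure ℤ (AlgebraicClosure ℚ)), Q.IsMaximal ∧
      ((ℓ : ℤ) : integralClosure ℤ (AlgebraicClosure ℚ)) ∈ Q := by
  have hne : Ideal.span {((ℓ : ℤ) : integralClosure ℤ (AlgebraicClosure ℚ))} ≠ ⊤ := by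
    intro h
    rw [Ideal.span_singleton_eq_top] at h
    obtain ⟨u, hu⟩ := h.exists_right_inv
    have hu' : ((ℓ : ℤ) : AlgebraicClosure ℚ) * (u : AlgebraicClosure ℚ) = 1 := by
      have := congrArg (fun z : integralClosure ℤ (AlgebraicClosure ℚ) =>
        (z : AlgebraicClosure ℚ)) hu
      simpa using this
    have hℓ0 : ((ℓ : ℤ) : AlgebraicClosure ℚ) ≠ 0 := by
      have := hℓ.ne_zero
      simpa using this
    have hu2 : (u : AlgebraicClosure ℚ) = algebraMap ℚ (AlgebraicClosure ℚ) ((ℓ : ℚ)⁻¹) := by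
      rw [map_inv₀, map_natCast]
      have := eq_inv_of_mul_eq_one_right hu'
      simpa using this
    have hint : IsIntegral ℤ (algebraMap ℚ (AlgebraicClosure ℚ) ((ℓ : ℚ)⁻¹)) := by
      rw [← hu2]; exact u.2
    obtain ⟨n, hn⟩ := exists_int_of_isIntegral_algebraMap _ hint
    have h1 : (n : ℚ) * (ℓ : ℚ) = 1 := by
      rw [hn, inv_mul_cancel₀]
      exact_mod_cast hℓ.ne_zero
    have h2 : n * (ℓ : ℤ) = 1 := by exact_mod_cast h1
    have h3 : IsUnit ((ℓ : ℤ)) := IsUnit.of_mul_eq_one _ (by rw [mul_comm]; exact h2)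
    have h4 := Int.isUnit_iff.mp h3
    have h5 := hℓ.two_le
    omega
  obtain ⟨Q, hQ, hle⟩ := Ideal.exists_le_maximal _ hne
  exact ⟨Q, hQ, hle (Ideal.subset_span rfl)⟩

theorem exists_frob_integralClosure (ℓ : ℕ) (hℓ : ℓ.Prime) :
    ∃ (Q : Ideal (integralClosure ℤ (AlgebraicClosure ℚ)))
      (σ : AlgebraicClosure ℚ ≃ₐ[ℚ] AlgebraicClosure ℚ),
      Q.IsMaximal ∧ ((ℓ : ℤ) : integralClosure ℤ (AlgebraicClosure ℚ)) ∈ Q ∧
      ∀ b : integralClosure ℤ (AlgebraicClosure ℚ),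
        ∃ c : integralClosure ℤ (AlgebraicClosure ℚ),
          (c : AlgebraicClosure ℚ) = σ (b : AlgebraicClosure ℚ) ∧ c - b ^ ℓ ∈ Q := by
  classical
  have halg : Algebra.IsAlgebraic ℚ (AlgebraicClosure ℚ) := AlgebraicClosure.isAlgebraic ℚ
  have hclos : IsAlgClosure ℚ (AlgebraicClosure ℚ) := AlgebraicClosure.instIsAlgClosure ℚ
  have hgal : IsGalois ℚ (AlgebraicClosure ℚ) := inferInstance
  have hinv := isInvariant_integralClosure
  obtain ⟨Q, hQ, hℓQ⟩ := exists_maximal_mem ℓ hℓ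
  have hQp : Q.IsPrime := hQ.isPrime
  letI : TopologicalSpace (integralClosure ℤ (AlgebraicClosure ℚ)) := ⊥
  have hdisc : DiscreteTopology (integralClosure ℤ (AlgebraicClosure ℚ)) := ⟨rfl⟩
  have hcont : ContinuousSMul (AlgebraicClosure ℚ ≃ₐ[ℚ] AlgebraicClosure ℚ)
      (integralClosure ℤ (AlgebraicClosure ℚ)) := by
    rw [continuousSMul_iff_stabilizer_isOpen]
    intro x
    have := stabilizer_isOpen_of_isIntegral (K := ℚ) (L := AlgebraicClosure ℚ)
      (x : AlgebraicClosure ℚ)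
    convert this using 1
    ext g
    simp only [SetLike.mem_coe, MulAction.mem_stabilizer_iff]
    constructor
    · intro h
      exact congrArg (fun z : integralClosure ℤ (AlgebraicClosure ℚ) =>
        (z : AlgebraicClosure ℚ)) h
    · intro h
      exact Subtype.ext h
  -- the Frobenius automorphism of the residue field
  letI : Field (integralClosure ℤ (AlgebraicClosure ℚ) ⧸ Q) := Ideal.Quotient.field Q
  have hchar : CharP (integralClosure ℤ (AlgebraicClosure ℚ) ⧸ Q) ℓ := by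
    haveI : Fact ℓ.Prime := ⟨hℓ⟩
    refine (CharP.charP_iff_prime_eq_zero hℓ).mpr ?_
    have : Ideal.Quotient.mk Q ((ℓ : ℤ) : integralClosure ℤ (AlgebraicClosure ℚ)) = 0 :=
      Ideal.Quotient.eq_zero_iff_mem.mpr hℓQ
    simpa using this
  haveI hexp : ExpChar (integralClosure ℤ (AlgebraicClosure ℚ) ⧸ Q) ℓ := ExpChar.prime hℓ
  have hsurj : Function.Surjective
      (frobenius (integralClosure ℤ (AlgebraicClosure ℚ) ⧸ Q) ℓ) := by
    intro x
    obtain ⟨b, rfl⟩ := Ideal.Quotient.mk_surjective x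
    obtain ⟨y, hy⟩ := IsAlgClosed.exists_pow_nat_eq (b : AlgebraicClosure ℚ) hℓ.pos
    have hyint : y ∈ integralClosure ℤ (AlgebraicClosure ℚ) := by
      have : IsIntegral ℤ (y ^ ℓ) := by rw [hy]; exact b.2
      exact IsIntegral.of_pow hℓ.pos this
    refine ⟨Ideal.Quotient.mk Q ⟨y, hyint⟩, ?_⟩
    rw [frobenius_def, ← map_pow]
    congr 1
    exact Subtype.ext hy
  have hinj : Function.Injective
      (frobenius (integralClosure ℤ (AlgebraicClosure ℚ) ⧸ Q) ℓ) :=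
    frobenius_inj _ ℓ
  let P : Ideal ℤ := Q.under ℤ
  let frobRing : (integralClosure ℤ (AlgebraicClosure ℚ) ⧸ Q) ≃+*
      (integralClosure ℤ (AlgebraicClosure ℚ) ⧸ Q) :=
    RingEquiv.ofBijective (frobenius (integralClosure ℤ (AlgebraicClosure ℚ) ⧸ Q) ℓ)
      ⟨hinj, hsurj⟩
  let frobAlg : (integralClosure ℤ (AlgebraicClosure ℚ) ⧸ Q) ≃ₐ[ℤ ⧸ P]
      (integralClosure ℤ (AlgebraicClosure ℚ) ⧸ Q) :=
    AlgEquiv.ofRingEquiv (f := frobRing) (by
      intro x
      obtain ⟨n, rfl⟩ := Ideal.Quotient.mk_surjective x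
      show frobenius _ ℓ (algebraMap (ℤ ⧸ P) _ (Ideal.Quotient.mk P n)) =
        algebraMap (ℤ ⧸ P) _ (Ideal.Quotient.mk P n)
      have h1 : algebraMap (ℤ ⧸ P) (integralClosure ℤ (AlgebraicClosure ℚ) ⧸ Q)
          (Ideal.Quotient.mk P n) = ((n : ℤ) : integralClosure ℤ (AlgebraicClosure ℚ) ⧸ Q) := by
        rw [Ideal.Quotient.algebraMap_mk_of_liesOver]
        simp
      rw [h1, frobenius_def]
      haveI : Fact ℓ.Prime := ⟨hℓ⟩
      have h := ZMod.pow_card ((n : ZMod ℓ))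
      have h2 := congrArg
        (ZMod.castHom (dvd_refl ℓ) (integralClosure ℤ (AlgebraicClosure ℚ) ⧸ Q)) h
      rw [map_pow, map_intCast] at h2
      exact h2)
  obtain ⟨σ, hσ⟩ := Ideal.Quotient.stabilizerHom_surjective_of_profinite
    (G := AlgebraicClosure ℚ ≃ₐ[ℚ] AlgebraicClosure ℚ) P Q frobAlg
  refine ⟨Q, σ.1, hQ, hℓQ, fun b => ⟨σ.1 • b, rfl, ?_⟩⟩
  have h1 := DFunLike.congr_fun hσ (Ideal.Quotient.mk Q b)
  rw [Ideal.Quotient.stabilizerHom_apply] at h1
  have h2 : frobAlg (Ideal.Quotient.mk Q b) = Ideal.Quotient.mk Q (b ^ ℓ) := by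
    show frobenius _ ℓ (Ideal.Quotient.mk Q b) = _
    rw [frobenius_def, map_pow]
  rw [h2] at h1
  exact Ideal.Quotient.eq.mp h1

end Fermat.Agent.S54
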