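import Fermat.Agent.S54.FrobVal
import Fermat.Agent.S54.FrobInt

set_option autoImplicit false

namespace Fermat.Agent.S54

/-- Existence of Frobenius elements in the absolute Galois group of `ℚ`. -/
theorem exists_isFrobeniusAt (ℓ : ℕ) (hℓ : ℓ.Prime) :
    ∃ (A : ValuationSubring (AlgebraicClosure ℚ))
      (σ : AlgebraicClosure ℚ ≃ₐ[ℚ] AlgebraicClosure ℚ),
      A.LiesOverPrime ℓ ∧ A.IsFrobeniusAt σ ℓ := by
  obtain ⟨Q, σ, hQ, hℓQ, hσ⟩ := exists_frob_integralClosure ℓ hℓ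
  obtain ⟨A, h1, h2⟩ := isFrobeniusAt_of_integral ℓ hℓ Q σ hQ hℓQ hσ
  exact ⟨A, σ, h1, h2⟩

end Fermat.Agent.S54
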