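import Mathlib
import Fermat.Prelude.Def_EllipticCurve_FrobeniusTrace
import Fermat.Prelude.Def_FLTPrelim_Ramification
import Fermat.Agent.S54.ValRing

set_option autoImplicit false

/-!
# From a Frobenius on the ring of algebraic integers to a Frobenius for a valuation subring
-/

namespace Fermat.Agent.S54

open scoped Pointwise

theorem isAlgebraic_int_algebraicClosure (x : AlgebraicClosure ℚ) : IsAlgebraic ℤ x :=
  (IsFractionRing.isAlgebraic_iff ℤ ℚ (AlgebraicClosure ℚ)).mpr
    ((AlgebraicClosure.isAlgebraic ℚ).isAlgebraic x)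

theorem isFrobeniusAt_of_integral (ℓ : ℕ) (hℓ : ℓ.Prime)
    (Q : Ideal (integralClosure ℤ (AlgebraicClosure ℚ)))
    (σ : AlgebraicClosure ℚ ≃ₐ[ℚ] AlgebraicClosure ℚ) (hQ : Q.IsMaximal)
    (hℓQ : ((ℓ : ℤ) : integralClosure ℤ (AlgebraicClosure ℚ)) ∈ Q)
    (hσ : ∀ b : integralClosure ℤ (AlgebraicClosure ℚ),
      ∃ c : integralClosure ℤ (AlgebraicClosure ℚ),
        (c : AlgebraicClosure ℚ) = σ (b : AlgebraicClosure ℚ) ∧ c - b ^ ℓ ∈ Q) :
    ∃ A : ValuationSubring (AlgebraicClosure ℚ), A.LiesOverPrime ℓ ∧ A.IsFrobeniusAt σ ℓ := by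
  classical
  have : Q.IsPrime := hQ.isPrime
  set A : ValuationSubring (AlgebraicClosure ℚ) :=
    locValuationSubring isAlgebraic_int_algebraicClosure Q ℓ hℓ hℓQ with hA
  have hmem : ∀ x : AlgebraicClosure ℚ, x ∈ A ↔
      ∃ s : integralClosure ℤ (AlgebraicClosure ℚ), s ∉ Q ∧
        (s : AlgebraicClosure ℚ) * x ∈ integralClosure ℤ (AlgebraicClosure ℚ) :=
    fun x => Iff.rfl
  have h1Q : (1 : integralClosure ℤ (AlgebraicClosure ℚ)) ∉ Q :=
    fun h => hQ.ne_top ((Ideal.eq_top_iff_one _).mpr h)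
  -- integers lie in `A`
  have hBA : ∀ b : integralClosure ℤ (AlgebraicClosure ℚ), (b : AlgebraicClosure ℚ) ∈ A :=
    fun b => (hmem _).mpr ⟨1, h1Q, by simpa using b.2⟩
  -- elements of `Q` are nonunits of `A`
  have hQnon : ∀ q : integralClosure ℤ (AlgebraicClosure ℚ), q ∈ Q →
      (q : AlgebraicClosure ℚ) ∈ A.nonunits := by
    intro q hq
    rw [ValuationSubring.mem_nonunits_iff_or]
    by_cases hq0 : (q : AlgebraicClosure ℚ) = 0
    · exact Or.inl hq0
    right
    rintro ⟨s, hs, hsq⟩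
    apply hs
    have : s = ⟨(s : AlgebraicClosure ℚ) * (q : AlgebraicClosure ℚ)⁻¹, hsq⟩ * q := by
      apply Subtype.ext
      simp [mul_assoc, inv_mul_cancel₀ hq0]
    rw [this]
    exact Q.mul_mem_left _ hq
  -- `σ` preserves integrality and `Q`
  have hσint : ∀ x : AlgebraicClosure ℚ, x ∈ integralClosure ℤ (AlgebraicClosure ℚ) →
      σ x ∈ integralClosure ℤ (AlgebraicClosure ℚ) := by
    intro x hx
    exact IsIntegral.map (σ : AlgebraicClosure ℚ ≃ₐ[ℚ] AlgebraicClosure ℚ).toAlgHom.toRingHom.toIntAlgHom hx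
  have hσint' : ∀ x : AlgebraicClosure ℚ, x ∈ integralClosure ℤ (AlgebraicClosure ℚ) →
      σ⁻¹ x ∈ integralClosure ℤ (AlgebraicClosure ℚ) := by
    intro x hx
    exact IsIntegral.map (σ⁻¹ : AlgebraicClosure ℚ ≃ₐ[ℚ] AlgebraicClosure ℚ).toAlgHom.toRingHom.toIntAlgHom hx
  have hσQ : ∀ b : integralClosure ℤ (AlgebraicClosure ℚ),
      (⟨σ b, hσint _ b.2⟩ : integralClosure ℤ (AlgebraicClosure ℚ)) ∈ Q ↔ b ∈ Q := by
    intro b
    obtain ⟨c, hc, hcb⟩ := hσ b
    have hc' : c = ⟨σ b, hσint _ b.2⟩ := Subtype.ext hc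
    rw [← hc']
    constructor
    · intro h
      have : b ^ ℓ ∈ Q := by
        have := Q.sub_mem h hcb
        simpa using this
      exact Ideal.IsPrime.mem_of_pow_mem ‹Q.IsPrime› _ this
    · intro h
      have : b ^ ℓ ∈ Q := Ideal.pow_mem_of_mem _ h _ hℓ.pos
      have := Q.add_mem hcb this
      simpa using this
  -- `σ` stabilises `A`
  have hσA : ∀ x : AlgebraicClosure ℚ, x ∈ A ↔ σ x ∈ A := by
    intro x
    constructor
    · rintro ⟨s, hs, hsx⟩
      refine ⟨⟨σ s, hσint _ s.2⟩, fun h => hs ((hσQ s).mp h), ?_⟩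
      have : ((⟨σ s, hσint _ s.2⟩ : integralClosure ℤ (AlgebraicClosure ℚ)) :
          AlgebraicClosure ℚ) * σ x = σ ((s : AlgebraicClosure ℚ) * x) := by
        simp
      rw [this]
      exact hσint _ hsx
    · rintro ⟨t, ht, htx⟩
      refine ⟨⟨σ⁻¹ t, hσint' _ t.2⟩, fun h => ht ?_, ?_⟩
      · have := (hσQ ⟨σ⁻¹ t, hσint' _ t.2⟩).mpr h
        have h2 : (⟨σ ((⟨σ⁻¹ t, hσint' _ t.2⟩ : integralClosure ℤ (AlgebraicClosure ℚ)) :
            AlgebraicClosure ℚ), hσint _ (hσint' _ t.2)⟩ :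
            integralClosure ℤ (AlgebraicClosure ℚ)) = t := by
          apply Subtype.ext
          show σ (σ⁻¹ (t : AlgebraicClosure ℚ)) = t
          rw [← AlgEquiv.mul_apply, mul_inv_cancel, AlgEquiv.one_apply]
        rwa [h2] at this
      · have : ((⟨σ⁻¹ t, hσint' _ t.2⟩ : integralClosure ℤ (AlgebraicClosure ℚ)) :
            AlgebraicClosure ℚ) * x = σ⁻¹ ((t : AlgebraicClosure ℚ) * σ x) := by
          rw [map_mul]
          congr 1
          show x = σ⁻¹ (σ x)
          rw [← AlgEquiv.mul_apply, inv_mul_cancel, AlgEquiv.one_apply]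
        rw [this]
        exact hσint' _ htx
  have hdec : σ ∈ A.decompositionSubgroup ℚ := by
    rw [MulAction.mem_stabilizer_iff]
    apply SetLike.ext
    intro x
    rw [ValuationSubring.mem_pointwise_smul_iff_inv_smul_mem]
    rw [hσA (σ⁻¹ • x)]
    have : σ (σ⁻¹ • x) = x := by
      show σ (σ⁻¹ x) = x
      rw [← AlgEquiv.mul_apply, mul_inv_cancel, AlgEquiv.one_apply]
    rw [this]
  refine ⟨A, ?_, hdec, ?_⟩
  · -- `ℓ` is a nonunit
    have := hQnon _ hℓQ
    simpa [ValuationSubring.LiesOverPrime] using this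
  · -- Frobenius on the residue field
    intro xbar
    obtain ⟨a, rfl⟩ := IsLocalRing.residue_surjective xbar
    obtain ⟨s, hs, hsa⟩ := (hmem a).mp a.2
    -- invert `s` modulo `Q`
    obtain ⟨u, q, hqQ, hu⟩ := hQ.exists_inv hs
    -- the inclusion of the integers into `A`
    let ι : integralClosure ℤ (AlgebraicClosure ℚ) → A := fun b => ⟨b, hBA b⟩
    have hιQ : ∀ q : integralClosure ℤ (AlgebraicClosure ℚ), q ∈ Q →
        IsLocalRing.residue A (ι q) = 0 := by
      intro q hq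
      rw [IsLocalRing.residue_eq_zero_iff, ← ValuationSubring.coe_mem_nonunits_iff]
      exact hQnon q hq
    set b : integralClosure ℤ (AlgebraicClosure ℚ) := ⟨(s : AlgebraicClosure ℚ) * a, hsa⟩
    set t : integralClosure ℤ (AlgebraicClosure ℚ) := u * b
    have hat : IsLocalRing.residue A a = IsLocalRing.residue A (ι t) := by
      have h1 : a = ι t + a * ι q := by
        apply Subtype.ext
        show (a : AlgebraicClosure ℚ) =
          (u : AlgebraicClosure ℚ) * ((s : AlgebraicClosure ℚ) * a) + a * (q : AlgebraicClosure ℚ)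
        have h2 : (u : AlgebraicClosure ℚ) * (s : AlgebraicClosure ℚ) + (q : AlgebraicClosure ℚ)
            = 1 := by
          have := congrArg (fun z : integralClosure ℤ (AlgebraicClosure ℚ) =>
            (z : AlgebraicClosure ℚ)) hu
          simpa using this
        calc (a : AlgebraicClosure ℚ) = a * ((u : AlgebraicClosure ℚ) * s + q) := by
              rw [h2, mul_one]
          _ = _ := by ring
      conv_lhs => rw [h1]
      rw [map_add, map_mul, hιQ q hqQ, mul_zero, add_zero]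
    obtain ⟨c, hc, hcQ⟩ := hσ t
    have hsmul : (⟨σ, hdec⟩ : A.decompositionSubgroup ℚ) • ι t = ι c := by
      apply Subtype.ext
      show σ (t : AlgebraicClosure ℚ) = c
      exact hc.symm
    have hcres : IsLocalRing.residue A (ι c) = IsLocalRing.residue A (ι t) ^ ℓ := by
      have h1 : ι c = ι (c - t ^ ℓ) + (ι t) ^ ℓ := by
        apply Subtype.ext
        show (c : AlgebraicClosure ℚ) = ((c - t ^ ℓ : integralClosure ℤ (AlgebraicClosure ℚ)) :
          AlgebraicClosure ℚ) + (t : AlgebraicClosure ℚ) ^ ℓ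
        push_cast
        ring
      conv_lhs => rw [h1]
      rw [map_add, hιQ _ hcQ, zero_add, map_pow]
    rw [hat, ← IsLocalRing.ResidueField.residue_smul, hsmul, hcres]

end Fermat.Agent.S54
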