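import Mathlib
import Fermat.Prelude.Def_CuspForm_HeckeGaloisRepDatum
import Fermat.Prelude.Def_GaloisRep_DeformationRingData

set_option autoImplicit false

namespace Fermat.Agent.S54

open Polynomial

/-- On a free module of rank 2, the trace can be read off from the characteristic polynomial. -/
theorem trace_of_charpoly_eq {R M : Type*} [CommRing R] [Nontrivial R] [AddCommGroup M]
    [Module R M] [Module.Free R M] [Module.Finite R M] (h2 : Module.finrank R M = 2)
    (f : M →ₗ[R] M) (a b : R) (hf : LinearMap.charpoly f = X ^ 2 - C a * X + C b) :
    LinearMap.trace R M f = a := by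
  classical
  let bas := Module.Free.chooseBasis R M
  have hcard : Fintype.card (Module.Free.ChooseBasisIndex R M) = 2 := by
    rw [← Module.finrank_eq_card_chooseBasisIndex, h2]
  haveI : Nonempty (Module.Free.ChooseBasisIndex R M) := by
    rw [← Fintype.card_pos_iff, hcard]; norm_num
  rw [LinearMap.trace_eq_matrix_trace R bas f, Matrix.trace_eq_neg_charpoly_coeff,
    LinearMap.charpoly_toMatrix, hf, hcard]
  simp [coeff_X, coeff_C]

end Fermat.Agent.S54
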